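import Fermat.Agent.Genus.Counts
import Fermat.Agent.FF.Differential
import Fermat.Prelude.Def_ModularCurve_GenusNumerics
import Fermat.Agent.Results.S20

/-!
# The genus of `X₀(N)`
-/

set_option autoImplicit false

noncomputable section

open AlgebraicCurve ModularCurve
open scoped IntermediateField

namespace Fermat.Agent.Genus

local notation "Qb" => AlgebraicClosure ℚ

variable (N : ℕ) [NeZero N]

/-- Ramification is trivial away from `j = 0, 1728, ∞`. -/
lemma ord_jB_sub_eq_one (a : Qb) (h0 : a ≠ 0) (h1 : a ≠ 1728) (v : Place Qb (Fbar N))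
    (hv : 0 < v.ord (jB N - algebraMap Qb (Fbar N) a)) :
    v.ord (jB N - algebraMap Qb (Fbar N) a) = 1 := by
  set y := jB N - algebraMap Qb (Fbar N) a with hy
  have hcard := card_zeros_generic N a h0 h1
  have hsum := sum_ord_zerosFin N (transcendental_jB_sub N a)
  rw [(degree_jB_sub N a).2, ← hcard, ← hy] at hsum
  by_contra hne
  have hlt : ∑ w ∈ zerosFin N y, (1 : ℤ) < ∑ w ∈ zerosFin N y, w.ord y :=
    Finset.sum_lt_sum (fun w hw => by have := (mem_zerosFin N).mp hw; omega)
      ⟨v, (mem_zerosFin N).mpr hv, by omega⟩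
  rw [hsum] at hlt
  simp at hlt

/-- The reduced divisor of zeros. -/
def redZeros (y : Fbar N) : Divisor Qb (Fbar N) := ∑ v ∈ zerosFin N y, Finsupp.single v 1

lemma redZeros_apply (y : Fbar N) (v : Place Qb (Fbar N)) :
    redZeros N y v = if 0 < v.ord y then 1 else 0 := by
  classical
  simp only [redZeros, Finsupp.finset_sum_apply, Finsupp.single_apply, Finset.sum_ite_eq',
    mem_zerosFin]

lemma degree_redZeros (y : Fbar N) :
    Divisor.degree (redZeros N y) = ((zerosFin N y).card : ℤ) := by
  simp [redZeros, FF.deg_eq_one]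

lemma degree_poles_inv {y : Fbar N} (hy : Transcendental Qb y)
    (h : Module.finrank Qb⟮y⟯ (Fbar N) = dedekindPsi N) :
    Divisor.degree (FF.poles Qb y⁻¹) = (dedekindPsi N : ℤ) := by
  rw [FF.degree_zeros hy, h]

/-- `deg div (dj) = ψ - r₀ - r₁₇₂₈ - r_∞`. -/
theorem degree_div_dj :
    Divisor.degree (canonicalDivisorOf (FF.D_ne_zero (K := Qb) (ModFun.transcendental_jBase N Qb)))
      = (dedekindPsi N : ℤ) - (zerosFin N (jB N - algebraMap Qb (Fbar N) 0)).card
        - (zerosFin N (jB N - algebraMap Qb (Fbar N) 1728)).card - (zerosFin N (jB N)⁻¹).card := by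
  set y₀ := jB N - algebraMap Qb (Fbar N) 0 with hy₀
  set y₁ := jB N - algebraMap Qb (Fbar N) 1728 with hy₁
  have ht := ModFun.transcendental_jBase N Qb
  have key : canonicalDivisorOf (FF.D_ne_zero (K := Qb) ht)
      = (FF.poles Qb y₀⁻¹ - redZeros N y₀) + (FF.poles Qb y₁⁻¹ - redZeros N y₁)
        - (FF.poles Qb (jB N) + redZeros N (jB N)⁻¹) := by
    ext v
    simp only [Finsupp.add_apply, Finsupp.sub_apply, canonicalDivisorOf_apply, redZeros_apply,
      FF.poles, Finsupp.onFinset_apply, Place.ord_inv, neg_neg]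
    have hz : y₀ = jB N := by rw [hy₀, map_zero, sub_zero]
    rcases lt_or_ge (v.ord (jB N)) 0 with hneg | hpos
    · rw [FF.ordDifferential_D_of_ord_neg v hneg]
      have e₁ : v.ord y₁ = v.ord (jB N) := by
        rw [hy₁, sub_eq_add_neg, ← map_neg]
        refine (FF.ord_add_eq_left v (fun h => ?_) ?_).2
        · rw [h, Place.ord_zero] at hneg; exact lt_irrefl _ hneg
        · exact Or.inr (by rw [FF.ord_algebraMap]; exact hneg)
      rw [hz, e₁]
      split_ifs <;> omega
    · obtain ⟨a, ha⟩ := FF.exists_ord_sub_pos v ht hpos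
      rw [FF.ordDifferential_D v a ha.ne']
      have huniq : ∀ b : Qb, b ≠ a → v.ord (jB N - algebraMap Qb (Fbar N) b) = 0 := by
        intro b hb
        have e : jB N - algebraMap Qb (Fbar N) b
            = algebraMap Qb (Fbar N) (a - b) + (jB N - algebraMap Qb (Fbar N) a) := by
          rw [map_sub]; ring
        rw [e, (FF.ord_add_eq_left v (f := algebraMap Qb (Fbar N) (a - b))
          ((_root_.map_ne_zero _).mpr (sub_ne_zero.mpr (Ne.symm hb)))
          (Or.inr (by rw [FF.ord_algebraMap]; exact ha))).2, FF.ord_algebraMap]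
      by_cases h0 : a = 0
      · subst h0
        have e₁ : v.ord y₁ = 0 := huniq _ (by norm_num)
        rw [map_zero, sub_zero] at ha ⊢
        rw [hz, e₁]
        simp only [jB] at ha hpos ⊢
        split_ifs <;> omega
      have e₀ : v.ord y₀ = 0 := huniq _ (Ne.symm h0)
      have hj : v.ord (jB N) = 0 := hz ▸ e₀
      by_cases h1 : a = 1728
      · subst h1
        rw [← hy₁] at ha ⊢
        rw [e₀, hj]
        split_ifs <;> omega
      have e₁ : v.ord y₁ = 0 := huniq _ (Ne.symm h1)
      rw [ord_jB_sub_eq_one N a h0 h1 v ha, e₀, e₁, hj]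
      simp
  rw [key, map_sub, map_add, map_add, map_sub, map_sub, degree_redZeros, degree_redZeros,
    degree_redZeros, degree_poles_inv N (transcendental_jB_sub N 0) (degree_jB_sub N 0).2,
    degree_poles_inv N (transcendental_jB_sub N 1728) (degree_jB_sub N 1728).2,
    FF.degree_poles ht, (ModFun.finrank_baseChange N Qb).2]
  ring

theorem genus_eq_genusFormula :
    (genus Qb (Fbar N) : ℚ) = genusFormula N := by
  rw [FF.genus_eq_of_dx (ModFun.transcendental_jBase N Qb)]
  set D := canonicalDivisorOf (FF.D_ne_zero (K := Qb) (ModFun.transcendental_jBase N Qb)) with hD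
  have hd := degree_div_dj N
  rw [← hD] at hd
  have h0 := three_mul_card_zeros_zero N
  have h1 := two_mul_card_zeros_1728 N
  have h2 := card_zeros_inv N
  set g := Module.finrank ℂ (CuspForm (CongruenceSubgroup.Gamma0 N) 2)
  have hg : (g : ℚ) = genusFormula N := Fermat.Agent.Results.S20.result N
  have key : Divisor.degree D = 2 * (g : ℤ) - 2 := by
    have hq : ((Divisor.degree D : ℤ) : ℚ) = 2 * (g : ℚ) - 2 := by
      have h0' : (3 : ℚ) * (zerosFin N (jB N - algebraMap Qb (Fbar N) 0)).card
          = dedekindPsi N + 2 * nuThree N := by exact_mod_cast h0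
      have h1' : (2 : ℚ) * (zerosFin N (jB N - algebraMap Qb (Fbar N) 1728)).card
          = dedekindPsi N + nuTwo N := by exact_mod_cast h1
      rw [hd, hg, genusFormula, h2]
      revert h0' h1'
      generalize (zerosFin N (jB N - algebraMap Qb (Fbar N) 0)).card = r₀
      generalize (zerosFin N (jB N - algebraMap Qb (Fbar N) 1728)).card = r₁
      intro h0' h1'
      push_cast
      linear_combination (-1 / 3 : ℚ) * h0' + (-1 / 2 : ℚ) * h1'
    exact_mod_cast hq
  rw [key, ← hg]
  rw [show ((2 : ℤ) * (g : ℤ) - 2 + 2).toNat = 2 * g by omega, Nat.mul_div_cancel_left g two_pos]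

end Fermat.Agent.Genus
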